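/-
S25 U5a: pullbacks of rigidified bundles, affine neighbourhoods, local gluing of classifying morphisms.
-/
import Fermat.Agent.Jac.Deg0
import Fermat.Agent.Jac.Global
import Mathlib.FieldTheory.IsAlgClosed.AlgebraicClosure

set_option autoImplicit false
set_option linter.style.haveILetI false
set_option linter.unusedSectionVars false

noncomputable section

universe u

open CategoryTheory CategoryTheory.Limits AlgebraicGeometry NeronModelInfra AlgebraicGeometry.RelPicard
  GoodReductionJacobian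

namespace Fermat.Agent.Jac

namespace Sch

variable {k : Type u} [Field k] {C : Scheme.{u}} {c : C ⟶ Spec (CommRingCat.of k)}
  {ε : SchemeHomOver (𝟙 (Spec (CommRingCat.of k))) c}
variable {T T' T'' : Scheme.{u}} {t : T ⟶ Spec (CommRingCat.of k)}
  {t' : T' ⟶ Spec (CommRingCat.of k)} {t'' : T'' ⟶ Spec (CommRingCat.of k)}

/-- Isomorphism of the underlying line bundles. -/
def BIso (L L' : RigidifiedLineBundle c ε t) : Prop := Nonempty (L.L ≅ L'.L)

theorem BIso.refl (L : RigidifiedLineBundle c ε t) : BIso L L := ⟨Iso.refl _⟩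

theorem BIso.symm {L L' : RigidifiedLineBundle c ε t} (h : BIso L L') : BIso L' L := ⟨h.some.symm⟩

theorem BIso.trans {L L' L'' : RigidifiedLineBundle c ε t} (h : BIso L L') (h' : BIso L' L'') :
    BIso L L'' := ⟨h.some ≪≫ h'.some⟩

theorem BIso.pullback {L L' : RigidifiedLineBundle c ε t} (h : BIso L L')
    (ψ : SchemeHomOver t' t) : BIso (L.pullbackAlong ψ) (L'.pullbackAlong ψ) :=
  RigidifiedLineBundle.pullbackAlong_congr ψ h

theorem bIso_pullback_pullback (L : RigidifiedLineBundle c ε t) (φ : SchemeHomOver t' t)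
    (ψ : SchemeHomOver t'' t') :
    BIso ((L.pullbackAlong φ).pullbackAlong ψ) (L.pullbackAlong (postComp φ ψ)) :=
  ⟨(Scheme.Modules.pullbackComp _ _).app L.L ≪≫
    (Scheme.Modules.pullbackCongr (baseChangeSnd_comp c φ ψ)).app L.L⟩

theorem bIso_pullback_id (L : RigidifiedLineBundle c ε t) :
    BIso (L.pullbackAlong ⟨𝟙 T, Category.id_comp t⟩) L :=
  ⟨(Scheme.Modules.pullbackCongr (baseChangeSnd_id c t)).app L.L ≪≫
    (Scheme.Modules.pullbackId (Limits.pullback c t)).app L.L⟩

theorem bIso_pullback_unit (ψ : SchemeHomOver t' t) :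
    BIso ((RigidifiedLineBundle.unit (c := c) (ε := ε) t).pullbackAlong ψ)
      (RigidifiedLineBundle.unit t') :=
  ⟨Scheme.Modules.pullbackUnitIso _⟩

theorem bIso_postComp {L : RigidifiedLineBundle c ε t} {L' : RigidifiedLineBundle c ε t'}
    {g : SchemeHomOver t' t} (h : BIso (L.pullbackAlong g) L') (ψ : SchemeHomOver t'' t') :
    BIso (L.pullbackAlong (postComp g ψ)) (L'.pullbackAlong ψ) :=
  (bIso_pullback_pullback L g ψ).symm.trans (h.pullback ψ)

theorem bIso_of_comp_eq {L : RigidifiedLineBundle c ε t} {T₁ T₂ : Scheme.{u}}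
    {t₁ : T₁ ⟶ Spec (CommRingCat.of k)} {t₂ : T₂ ⟶ Spec (CommRingCat.of k)}
    (φ₁ : SchemeHomOver t₁ t) (φ₂ : SchemeHomOver t₂ t) (a : SchemeHomOver t' t₁)
    (b : SchemeHomOver t' t₂) (h : a.1 ≫ φ₁.1 = b.1 ≫ φ₂.1) :
    BIso ((L.pullbackAlong φ₁).pullbackAlong a) ((L.pullbackAlong φ₂).pullbackAlong b) := by
  refine (bIso_pullback_pullback L φ₁ a).trans ?_
  rw [show postComp φ₁ a = postComp φ₂ b from Subtype.ext h]
  exact (bIso_pullback_pullback L φ₂ b).symm

/-- A morphism between affine schemes over the field comes from a homomorphism of algebras. -/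
theorem exists_specMap {B B' : Type u} [CommRing B] [Algebra k B] [CommRing B'] [Algebra k B']
    (g : SchemeHomOver (specBase k B') (specBase k B)) : ∃ φ : B →ₐ[k] B', g = specMap φ := by
  let ψ : CommRingCat.of B ⟶ CommRingCat.of B' := Spec.preimage g.1
  have h2 : CommRingCat.ofHom (algebraMap k B) ≫ ψ = CommRingCat.ofHom (algebraMap k B') := by
    apply Spec.map_injective
    rw [Spec.map_comp, Spec.map_preimage]
    exact g.2
  refine ⟨⟨ψ.hom, fun r => RingHom.congr_fun (congrArg CommRingCat.Hom.hom h2) r⟩, Subtype.ext ?_⟩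
  exact (Spec.map_preimage g.1).symm

theorem postComp_specMap {B B' B'' : Type u} [CommRing B] [Algebra k B] [CommRing B'] [Algebra k B']
    [CommRing B''] [Algebra k B''] (φ : B →ₐ[k] B') (χ : B' →ₐ[k] B'') :
    postComp (specMap φ) (specMap χ) = specMap (χ.comp φ) := Subtype.ext (by
  show Spec.map _ ≫ Spec.map _ = Spec.map _
  rw [← Spec.map_comp, ← CommRingCat.ofHom_comp]
  rfl)

theorem exists_affine_nbhd (t : T ⟶ Spec (CommRingCat.of k)) {x : T} {U : T.Opens} (hx : x ∈ U) :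
    ∃ (B : Type u) (_ : CommRing B) (_ : Algebra k B) (j : SchemeHomOver (specBase k B) t),
      IsOpenImmersion j.1 ∧ x ∈ Set.range j.1 ∧ Set.range j.1 ⊆ U := by
  obtain ⟨S, f, hf, hxf, hsub⟩ := Scheme.exists_affine_mem_range_and_range_subset hx
  letI : Algebra k S := (Spec.preimage (f ≫ t)).hom.toAlgebra
  refine ⟨S, inferInstance, inferInstance, ⟨f, ?_⟩, hf, hxf, hsub⟩
  show f ≫ t = Spec.map (CommRingCat.ofHom (algebraMap k S))
  exact (Spec.map_preimage (f ≫ t)).symm

theorem specMap_apply {B K : Type u} [CommRing B] [Algebra k B] [Field K] [Algebra k K]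
    (φ : B →ₐ[k] K) (z : Spec (CommRingCat.of K)) :
    ((specMap φ).1 z : PrimeSpectrum B).asIdeal = RingHom.ker (φ : B →+* K) := by
  show Ideal.comap (φ : B →+* K) (z : PrimeSpectrum K).asIdeal = _
  rw [(Ideal.eq_bot_or_top (z : PrimeSpectrum K).asIdeal).resolve_right
    (z : PrimeSpectrum K).isPrime.ne_top]
  rfl

theorem exists_geometric_of_prime {B : Type u} [CommRing B] [Algebra k B] (p : Ideal B) [p.IsPrime] :
    ∃ (K : Type u) (_ : Field K) (_ : IsAlgClosed K) (_ : Algebra k K) (φ : B →ₐ[k] K),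
      RingHom.ker (φ : B →+* K) = p := by
  let K := AlgebraicClosure (FractionRing (B ⧸ p))
  refine ⟨K, inferInstance, inferInstance, inferInstance, (IsScalarTower.toAlgHom k (B ⧸ p) K).comp
    (Ideal.Quotient.mkₐ k p), ?_⟩
  ext b
  rw [RingHom.mem_ker]
  show algebraMap (B ⧸ p) K (Ideal.Quotient.mk p b) = 0 ↔ _
  rw [IsScalarTower.algebraMap_apply (B ⧸ p) (FractionRing (B ⧸ p)) K,
    map_eq_zero_iff _ (algebraMap (FractionRing (B ⧸ p)) K).injective,
    map_eq_zero_iff _ (IsFractionRing.injective (B ⧸ p) (FractionRing (B ⧸ p))),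
    Ideal.Quotient.eq_zero_iff_mem]

theorem exists_geometricPoint (t : T ⟶ Spec (CommRingCat.of k)) (x : T) :
    ∃ (K : Type u) (_ : Field K) (_ : IsAlgClosed K) (_ : Algebra k K)
      (s : SchemeHomOver (specBase k K) t), ∀ z, s.1 z = x := by
  obtain ⟨B, _, _, j, _, ⟨y, hy⟩, -⟩ := exists_affine_nbhd t (U := ⊤) (x := x) trivial
  haveI := (y : PrimeSpectrum B).isPrime
  obtain ⟨K, _, _, _, φ, hφ⟩ := exists_geometric_of_prime (k := k) (y : PrimeSpectrum B).asIdeal
  refine ⟨K, inferInstance, inferInstance, inferInstance, postComp j (specMap φ), fun z => ?_⟩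
  show j.1 ((specMap φ).1 z) = x
  rw [show (specMap φ).1 z = y from PrimeSpectrum.ext ((specMap_apply φ z).trans hφ), hy]

theorem exists_lift {T₁ : Scheme.{u}} {t₁ : T₁ ⟶ Spec (CommRingCat.of k)} (j : SchemeHomOver t₁ t)
    [IsOpenImmersion j.1] (g : SchemeHomOver t' t) (h : Set.range g.1 ⊆ Set.range j.1) :
    ∃ a : SchemeHomOver t' t₁, postComp j a = g := by
  refine ⟨⟨IsOpenImmersion.lift j.1 g.1 h, ?_⟩, Subtype.ext (IsOpenImmersion.lift_fac _ _ _)⟩
  exact (congrArg (IsOpenImmersion.lift j.1 g.1 h ≫ ·) j.2.symm).trans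
    ((IsOpenImmersion.lift_fac_assoc _ _ _ _).trans g.2)

theorem exists_opensHom (j : SchemeHomOver t' t) [IsOpenImmersion j.1] :
    ∃ a : SchemeHomOver (j.1.opensRange.ι ≫ t) t', a.1 ≫ j.1 = j.1.opensRange.ι := by
  obtain ⟨a, ha⟩ := exists_lift j (⟨j.1.opensRange.ι, rfl⟩ : SchemeHomOver (j.1.opensRange.ι ≫ t) t)
    (by rw [Scheme.Opens.range_ι]; rfl)
  exact ⟨a, congrArg Subtype.val ha⟩

variable [IsProper c] (M : CurveModel c ε)

include M in
theorem bIso_of_cover (L L' : RigidifiedLineBundle c ε t)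
    (h : ∀ x : T, ∃ (T₁ : Scheme.{u}) (t₁ : T₁ ⟶ Spec (CommRingCat.of k)) (j : SchemeHomOver t₁ t),
      IsOpenImmersion j.1 ∧ x ∈ Set.range j.1 ∧ BIso (L.pullbackAlong j) (L'.pullbackAlong j)) :
    BIso L L' := by
  refine M.iso_of_locally t L L' fun x => ?_
  obtain ⟨T₁, t₁, j, _, hx, hj⟩ := h x
  obtain ⟨a, ha⟩ := exists_opensHom j
  refine ⟨j.1.opensRange, hx, ?_⟩
  have e : postComp j a = ⟨j.1.opensRange.ι, rfl⟩ := Subtype.ext ha
  have h1 := (bIso_pullback_pullback L j a).symm.trans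
    ((hj.pullback a).trans (bIso_pullback_pullback L' j a))
  rw [e] at h1
  exact h1

/-- A line bundle separates morphisms into its base. -/
def Separates {X : Scheme.{u}} {x : X ⟶ Spec (CommRingCat.of k)}
    (P : RigidifiedLineBundle c ε x) : Prop :=
  ∀ (T : Scheme.{u}) (t : T ⟶ Spec (CommRingCat.of k)) (g g' : SchemeHomOver t x),
    BIso (P.pullbackAlong g) (P.pullbackAlong g') → g = g'

include M in
theorem exists_glue_hom {X : Scheme.{u}} {x : X ⟶ Spec (CommRingCat.of k)}
    {P : RigidifiedLineBundle c ε x} (hP : Separates P) (L : RigidifiedLineBundle c ε t)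
    (h : ∀ y : T, ∃ (T₁ : Scheme.{u}) (t₁ : T₁ ⟶ Spec (CommRingCat.of k)) (j : SchemeHomOver t₁ t),
      IsOpenImmersion j.1 ∧ y ∈ Set.range j.1 ∧
        ∃ g : SchemeHomOver t₁ x, BIso (P.pullbackAlong g) (L.pullbackAlong j)) :
    ∃! g : SchemeHomOver t x, BIso (P.pullbackAlong g) L := by
  choose T₁ t₁ j hj hy g hg using h
  let 𝒰 : T.OpenCover := {
    I₀ := T, X := T₁, f := fun y => (j y).1,
    mem₀ := by
      rw [Scheme.presieve₀_mem_precoverage_iff]
      exact ⟨fun y => ⟨y, hy y⟩, hj⟩ }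
  have hcompat : ∀ y z, pullback.fst (j y).1 (j z).1 ≫ (g y).1 =
      pullback.snd (j y).1 (j z).1 ≫ (g z).1 := fun y z => by
    let a : SchemeHomOver (pullback.fst (j y).1 (j z).1 ≫ t₁ y) (t₁ y) := ⟨pullback.fst _ _, rfl⟩
    let b : SchemeHomOver (pullback.fst (j y).1 (j z).1 ≫ t₁ y) (t₁ z) := ⟨pullback.snd _ _, by
      exact (congrArg (pullback.snd _ _ ≫ ·) (j z).2.symm).trans
        ((pullback.condition_assoc t).symm.trans (congrArg (pullback.fst _ _ ≫ ·) (j y).2))⟩
    exact congrArg Subtype.val (hP _ _ (postComp (g y) a) (postComp (g z) b)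
      (((bIso_postComp (hg y) a).trans (bIso_of_comp_eq (j y) (j z) a b pullback.condition)).trans
        (bIso_postComp (hg z) b).symm))
  let G : SchemeHomOver t x := ⟨𝒰.glueMorphisms (fun y => (g y).1) hcompat, 𝒰.hom_ext _ _ fun y => by
    rw [Scheme.Cover.ι_glueMorphisms_assoc]
    exact (g y).2.trans (j y).2.symm⟩
  have hG : BIso (P.pullbackAlong G) L := bIso_of_cover M _ _ fun y => by
    refine ⟨T₁ y, t₁ y, j y, hj y, hy y, ?_⟩
    refine (bIso_pullback_pullback P G (j y)).trans ?_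
    rw [show postComp G (j y) = g y from
      Subtype.ext (Scheme.Cover.ι_glueMorphisms 𝒰 (fun y => (g y).1) hcompat y)]
    exact hg y
  exact ⟨G, hG, fun G' hG' => hP _ _ G' G (BIso.trans hG' hG.symm)⟩

end Sch

end Fermat.Agent.Jac
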