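/-
S25 U5a: the open set of points over which a twist of a bundle lies in the chart, and classification there.
-/
import Fermat.Agent.Jac.Scheme.Basics
import Fermat.Agent.Jac.Points
import Fermat.Agent.Jac.Chart

set_option autoImplicit false
set_option linter.style.haveILetI false
set_option linter.unusedSectionVars false

noncomputable section

universe u

open CategoryTheory CategoryTheory.Limits AlgebraicGeometry NeronModelInfra AlgebraicGeometry.RelPicard
  GoodReductionJacobian

namespace Fermat.Agent.Jac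

namespace Sch

variable {k : Type u} [Field k] [IsAlgClosed k] {C : Scheme.{u}} {c : C ⟶ Spec (CommRingCat.of k)}
  {ε : SchemeHomOver (𝟙 (Spec (CommRingCat.of k))) c} [IsProper c] (M : CurveModel c ε)
variable {T T' : Scheme.{u}} {t : T ⟶ Spec (CommRingCat.of k)} {t' : T' ⟶ Spec (CommRingCat.of k)}
variable {B B' : Type u} [CommRing B] [Algebra k B] [CommRing B'] [Algebra k B']

/-- A bundle defined over the base field, seen over an algebra. -/
def ext (τ : M.D.Lat k) (B : Type u) [CommRing B] [Algebra k B] : M.D.Lat B :=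
  M.D.latMap (Algebra.ofId k B) τ

theorem latMap_ext (τ : M.D.Lat k) (φ : B →ₐ[k] B') : M.D.latMap φ (ext M τ B) = ext M τ B' := by
  rw [ext, ext, M.D.latMap_latMap, show φ.comp (Algebra.ofId k B) = Algebra.ofId k B' from
    Subsingleton.elim _ _]

theorem latMap_mul_ext (τ : M.D.Lat k) (W : M.D.Lat B) (φ : B →ₐ[k] B') :
    M.D.latMap φ (W * ext M τ B) = M.D.latMap φ W * ext M τ B' := by
  rw [map_mul, latMap_ext]

theorem degZero_ext {τ : M.D.Lat k} (hτ : τ.DegZero) (B : Type u) [CommRing B] [Algebra k B] :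
    (ext M τ B).DegZero := CurveData.DegZero.latMap hτ _

theorem sameClass_mul_right {V W : M.D.Lat B} (h : CurveData.SameClass V W) (X : M.D.Lat B) :
    CurveData.SameClass (V * X) (W * X) := by
  obtain ⟨u, rfl⟩ := h
  exact ⟨u, by rw [mul_assoc]⟩

theorem sameClass_of_bIso {V W : M.D.Lat B} (h : BIso (M.bundle V) (M.bundle W)) :
    CurveData.SameClass V W := (M.bundle_iso_iff V W).mp h

theorem bIso_bundle_pullback {L : RigidifiedLineBundle c ε t} {j : SchemeHomOver (specBase k B) t}
    {W : M.D.Lat B} (h : BIso (L.pullbackAlong j) (M.bundle W)) (φ : B →ₐ[k] B') :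
    BIso (L.pullbackAlong (postComp j (specMap φ))) (M.bundle (M.D.latMap φ W)) :=
  ((bIso_pullback_pullback L j (specMap φ)).symm.trans (h.pullback _)).trans
    (M.bundle_pullbackAlong φ W)

theorem exists_bundle_local (L : RigidifiedLineBundle c ε t) (x : T) :
    ∃ (B : Type u) (_ : CommRing B) (_ : Algebra k B) (j : SchemeHomOver (specBase k B) t)
      (W : M.D.Lat B), IsOpenImmersion j.1 ∧ x ∈ Set.range j.1 ∧
        BIso (L.pullbackAlong j) (M.bundle W) := by
  obtain ⟨B, _, _, j, hj, ⟨y, hy⟩, -⟩ := exists_affine_nbhd t (U := ⊤) (x := x) trivial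
  haveI := (y : PrimeSpectrum B).isPrime
  obtain ⟨f, hf, W, hW⟩ := M.exists_bundle_iso (L.pullbackAlong j) (y : PrimeSpectrum B).asIdeal
  let l := IsScalarTower.toAlgHom k B (Localization.Away f)
  haveI h1 : IsOpenImmersion (specMap l).1 :=
    IsOpenImmersion.of_isLocalization f (S := Localization.Away f)
  refine ⟨Localization.Away f, inferInstance, inferInstance, postComp j (specMap l), W, ?_, ?_,
    (bIso_pullback_pullback L j (specMap l)).symm.trans hW⟩
  · show IsOpenImmersion ((specMap l).1 ≫ j.1)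
    infer_instance
  · obtain ⟨z, hz⟩ : (y : PrimeSpectrum B) ∈
        Set.range (PrimeSpectrum.comap (algebraMap B (Localization.Away f))) := by
      rw [PrimeSpectrum.localization_away_comap_range (Localization.Away f) f]
      exact hf
    refine ⟨z, ?_⟩
    show j.1 ((specMap l).1 z) = x
    rw [show (specMap l).1 z = y from hz, hy]

theorem degZero_bundle {L : RigidifiedLineBundle c ε t} (hL : M.DegFibrewise L)
    (j : SchemeHomOver (specBase k B) t) {W : M.D.Lat B}
    (h : BIso (L.pullbackAlong j) (M.bundle W)) : W.DegZero := by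
  refine (CurveData.degZero_iff_forall_prime W).mpr fun p _ => ?_
  obtain ⟨K, _, _, _, φ, hφ⟩ := exists_geometric_of_prime (k := k) p
  obtain ⟨N, hN⟩ := hL K (postComp j (specMap φ)) _ (bIso_bundle_pullback M h φ) K (AlgHom.id k K)
  refine ⟨K, inferInstance, inferInstance, φ, hφ, N, fun n hn => ?_⟩
  have h2 := hN n hn
  rwa [M.D.latMap_id] at h2

theorem degFibrewise_bundle {W : M.D.Lat B} (hW : W.DegZero) : M.DegFibrewise (M.bundle W) := by
  intro K _ _ _ s V hV
  obtain ⟨φ, rfl⟩ := exists_specMap s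
  exact CurveData.DegZero.of_sameClass (CurveData.DegZero.latMap hW φ)
    (sameClass_of_bIso M (BIso.trans (M.bundle_pullbackAlong φ W |> BIso.symm) hV))

theorem degFibrewise_unit (t : T ⟶ Spec (CommRingCat.of k)) :
    M.DegFibrewise (RigidifiedLineBundle.unit (c := c) (ε := ε) t) := by
  intro K _ _ _ s V hV
  exact CurveData.DegZero.of_sameClass CurveData.degZero_one
    (sameClass_of_bIso M (BIso.trans (BIso.trans M.bundle_one (bIso_pullback_unit s).symm) hV))

/-- The points over which the twist lies in the chart. -/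
def locus (τ : M.D.Lat k) (L : RigidifiedLineBundle c ε t) : Set T :=
  {x | ∀ (K : Type u) [Field K] [IsAlgClosed K] [Algebra k K] (s : SchemeHomOver (specBase k K) t),
    (∀ z, s.1 z = x) → ∀ W : M.D.Lat K, BIso (L.pullbackAlong s) (M.bundle W) →
      (W * ext M τ K).InChart}

variable {τ : M.D.Lat k} {L : RigidifiedLineBundle c ε t} {j : SchemeHomOver (specBase k B) t}
  {W : M.D.Lat B}

theorem mem_locus_of_away [IsOpenImmersion j.1] (h : BIso (L.pullbackAlong j) (M.bundle W)) {f : B}
    (hf : (M.D.latMap (IsScalarTower.toAlgHom k B (Localization.Away f)) (W * ext M τ B)).InChart)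
    (q : PrimeSpectrum B) (hq : f ∉ q.asIdeal) : j.1 q ∈ locus M τ L := by
  intro K _ _ _ s hs V hV
  obtain ⟨a, rfl⟩ := exists_lift j s (fun _ ⟨z, hz⟩ => ⟨q, (hs z).symm.trans hz⟩)
  obtain ⟨φ, rfl⟩ := exists_specMap a
  haveI : Nonempty (Spec (CommRingCat.of K)) := ⟨(⊥ : PrimeSpectrum K)⟩
  have hz : (specMap φ).1 (⊥ : PrimeSpectrum K) = q := by
    refine j.1.isOpenEmbedding.injective ?_
    exact hs _
  have hker : RingHom.ker (φ : B →+* K) = q.asIdeal := by
    rw [← specMap_apply φ (⊥ : PrimeSpectrum K), hz]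
  have hu : IsUnit ((φ : B →+* K) f) := isUnit_iff_ne_zero.mpr fun h0 => hq (hker ▸ RingHom.mem_ker.mpr h0)
  let ψ : Localization.Away f →ₐ[k] K :=
    { toRingHom := IsLocalization.Away.lift f (g := (φ : B →+* K)) hu
      commutes' := fun r => by
        show IsLocalization.Away.lift f hu (algebraMap k (Localization.Away f) r) = _
        rw [IsScalarTower.algebraMap_apply k B (Localization.Away f), IsLocalization.Away.lift_eq]
        exact φ.commutes r }
  have hψ : ψ.comp (IsScalarTower.toAlgHom k B (Localization.Away f)) = φ :=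
    AlgHom.ext fun b => IsLocalization.Away.lift_eq f hu b
  have h1 := CurveData.InChart.latMap hf ψ
  rw [M.D.latMap_latMap, hψ, latMap_mul_ext] at h1
  exact CurveData.InChart.of_sameClass h1 (sameClass_mul_right M
    (sameClass_of_bIso M ((bIso_bundle_pullback M h φ).symm.trans hV)) _)

theorem exists_away_of_inChart (hL : M.DegFibrewise L) (hτ : τ.DegZero)
    (h : BIso (L.pullbackAlong j) (M.bundle W)) (p : Ideal B) [p.IsPrime] {K : Type u} [Field K]
    [Algebra k K] (φ : B →ₐ[k] K) (hp : RingHom.ker (φ : B →+* K) = p)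
    (hc : (M.D.latMap φ W * ext M τ K).InChart) :
    ∃ f ∉ p, (M.D.latMap (IsScalarTower.toAlgHom k B (Localization.Away f))
      (W * ext M τ B)).InChart :=
  CurveData.exists_inChart_away
    (CurveData.DegZero.mul (degZero_bundle M hL j h) (degZero_ext M hτ _)) p φ hp
    (by rwa [latMap_mul_ext])

theorem exists_inChart_of_mem_locus [IsOpenImmersion j.1] (h : BIso (L.pullbackAlong j) (M.bundle W))
    (q : PrimeSpectrum B) (hq : j.1 q ∈ locus M τ L) :
    ∃ (K : Type u) (_ : Field K) (_ : IsAlgClosed K) (_ : Algebra k K) (φ : B →ₐ[k] K),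
      RingHom.ker (φ : B →+* K) = q.asIdeal ∧ (M.D.latMap φ W * ext M τ K).InChart := by
  haveI := q.isPrime
  obtain ⟨K, _, _, _, φ, hφ⟩ := exists_geometric_of_prime (k := k) q.asIdeal
  refine ⟨K, inferInstance, inferInstance, inferInstance, φ, hφ,
    hq K (postComp j (specMap φ)) (fun z => ?_) _ (bIso_bundle_pullback M h φ)⟩
  show j.1 ((specMap φ).1 z) = _
  rw [show (specMap φ).1 z = q from PrimeSpectrum.ext ((specMap_apply φ z).trans hφ)]

theorem mem_locus_of_inChart (hL : M.DegFibrewise L) (hτ : τ.DegZero) {K : Type u} [Field K]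
    [IsAlgClosed K] [Algebra k K] (s : SchemeHomOver (specBase k K) t) {x : T}
    (hs : ∀ z, s.1 z = x) {V : M.D.Lat K} (hV : BIso (L.pullbackAlong s) (M.bundle V))
    (hc : (V * ext M τ K).InChart) : x ∈ locus M τ L := by
  obtain ⟨B, _, _, j, W, _, ⟨q, rfl⟩, h⟩ := exists_bundle_local M L x
  obtain ⟨a, rfl⟩ := exists_lift j s (fun _ ⟨z, hz⟩ => ⟨q, (hs z).symm.trans hz⟩)
  obtain ⟨φ, rfl⟩ := exists_specMap a
  haveI := (q : PrimeSpectrum B).isPrime
  have hker : RingHom.ker (φ : B →+* K) = (q : PrimeSpectrum B).asIdeal := by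
    rw [← specMap_apply φ (⊥ : PrimeSpectrum K),
      show (specMap φ).1 (⊥ : PrimeSpectrum K) = q from j.1.isOpenEmbedding.injective (hs _)]
  obtain ⟨f, hf, hfc⟩ := exists_away_of_inChart M hL hτ h _ φ hker
    (CurveData.InChart.of_sameClass hc (sameClass_mul_right M
      (sameClass_of_bIso M (hV.symm.trans (bIso_bundle_pullback M h φ))) _))
  exact mem_locus_of_away M h hfc q hf

theorem isOpen_locus (hL : M.DegFibrewise L) (hτ : τ.DegZero) : IsOpen (locus M τ L) := by
  rw [isOpen_iff_forall_mem_open]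
  intro x hx
  obtain ⟨B, _, _, j, W, _, ⟨q, rfl⟩, h⟩ := exists_bundle_local M L x
  obtain ⟨K, _, _, _, φ, hφ, hc⟩ := exists_inChart_of_mem_locus M h q hx
  haveI := (q : PrimeSpectrum B).isPrime
  obtain ⟨f, hf, hfc⟩ := exists_away_of_inChart M hL hτ h _ φ hφ hc
  refine ⟨j.1 '' (PrimeSpectrum.basicOpen f : Set (PrimeSpectrum B)),
    fun _ ⟨q', hq', e⟩ => e ▸ mem_locus_of_away M h hfc q' hq', ?_, ⟨q, hf, rfl⟩⟩
  exact j.1.isOpenEmbedding.isOpenMap _ (PrimeSpectrum.basicOpen f).2

theorem locus_congr {L' : RigidifiedLineBundle c ε t} (h : BIso L L') (τ : M.D.Lat k) :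
    locus M τ L = locus M τ L' := by
  ext x
  constructor <;> intro hx K _ _ _ s hs V hV
  · exact hx K s hs V ((h.pullback s).trans hV)
  · exact hx K s hs V ((h.symm.pullback s).trans hV)

theorem mem_locus_pullback (hL : M.DegFibrewise L) (hτ : τ.DegZero) (ψ : SchemeHomOver t' t) (y : T') :
    y ∈ locus M τ (L.pullbackAlong ψ) ↔ ψ.1 y ∈ locus M τ L := by
  constructor
  · intro hy
    obtain ⟨K, _, _, _, s, hs⟩ := exists_geometricPoint t' y
    obtain ⟨B, _, _, j, W, _, ⟨q, hq⟩, h⟩ := exists_bundle_local M L (ψ.1 y)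
    obtain ⟨a, ha⟩ := exists_lift j (postComp ψ s) (fun _ ⟨z, hz⟩ => ⟨q, by
      rw [hq, ← hz]; exact (congrArg ψ.1 (hs z)).symm⟩)
    obtain ⟨φ, rfl⟩ := exists_specMap a
    have hV := bIso_bundle_pullback M h φ
    rw [ha] at hV
    refine mem_locus_of_inChart M hL hτ (postComp ψ s) (fun z => congrArg ψ.1 (hs z)) hV
      (hy K s hs _ ((bIso_pullback_pullback L ψ s).trans hV))
  · intro hx K _ _ _ s hs V hV
    exact hx K (postComp ψ s) (fun z => congrArg ψ.1 (hs z)) V
      ((bIso_pullback_pullback L ψ s).symm.trans hV)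

theorem exists_mem_locus {ι : Type u} (τ : ι → M.D.Lat k) (hτ : ∀ i, (τ i).DegZero)
    (hcov : ∀ (K : Type u) [Field K] [IsAlgClosed K] [Algebra k K] (W : M.D.Lat K), W.DegZero →
      ∃ i, (W * M.D.latMap (Algebra.ofId k K) (τ i)).InChart)
    {L : RigidifiedLineBundle c ε t} (hL : M.DegFibrewise L) (x : T) :
    ∃ i, x ∈ locus M (τ i) L := by
  obtain ⟨B, _, _, j, W, _, ⟨q, rfl⟩, h⟩ := exists_bundle_local M L x
  haveI := (q : PrimeSpectrum B).isPrime
  obtain ⟨K, _, _, _, φ, hφ⟩ := exists_geometric_of_prime (k := k) (q : PrimeSpectrum B).asIdeal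
  obtain ⟨i, hi⟩ := hcov K (M.D.latMap φ W)
    (CurveData.DegZero.latMap (degZero_bundle M hL j h) φ)
  obtain ⟨f, hf, hfc⟩ := exists_away_of_inChart M hL (hτ i) h _ φ hφ hi
  exact ⟨i, mem_locus_of_away M h hfc q hf⟩

theorem inChart_of_locus (hL : M.DegFibrewise L) (hτ : τ.DegZero) [IsOpenImmersion j.1]
    (h : BIso (L.pullbackAlong j) (M.bundle W)) (hfull : ∀ x, x ∈ locus M τ L) :
    (W * ext M τ B).InChart := by
  refine CurveData.inChart_of_forall_prime
    (CurveData.DegZero.mul (degZero_bundle M hL j h) (degZero_ext M hτ _)) fun p hp => ?_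
  obtain ⟨K, _, _, _, φ, hφ, hc⟩ := exists_inChart_of_mem_locus M h ⟨p, hp⟩ (hfull _)
  exact ⟨K, inferInstance, inferInstance, φ, hφ, by rwa [latMap_mul_ext]⟩

/-- An affine piece of the Jacobian. -/
structure LocalChart (τ : M.D.Lat k) : Type (u + 1) where
  R : Type u
  [commRing : CommRing R]
  [algebra : Algebra k R]
  finiteType : Algebra.FiniteType k R
  smooth : Algebra.FormallySmooth k R
  W₀ : M.D.Lat R
  normalised : W₀.IsNormalised
  univ : ∀ (B : Type u) [CommRing B] [Algebra k B] (W : M.D.Lat B), W.IsNormalised →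
    ∃! φ : R →ₐ[k] B, M.D.latMap φ W₀ = W

attribute [instance] LocalChart.commRing LocalChart.algebra

theorem nonempty_localChart (τ : M.D.Lat k) : Nonempty (LocalChart M τ) := by
  obtain ⟨R, _, _, W₀, h1, h2, h3, h4⟩ := M.D.exists_chart
  exact ⟨⟨R, h1, h2, W₀, h3, h4⟩⟩

variable {M}

namespace LocalChart

variable (X : LocalChart M τ)

/-- The lattice of the universal bundle. -/
def lat : M.D.Lat X.R := X.W₀ * (ext M τ X.R)⁻¹

/-- The universal bundle on the chart. -/
def P : RigidifiedLineBundle c ε (specBase k X.R) := M.bundle X.lat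

theorem latMap_lat_mul (φ : X.R →ₐ[k] B) :
    M.D.latMap φ X.lat * ext M τ B = M.D.latMap φ X.W₀ := by
  rw [lat, map_mul, map_inv, latMap_ext, inv_mul_cancel_right]

theorem degFibrewise (hτ : τ.DegZero) : M.DegFibrewise X.P :=
  degFibrewise_bundle M (CurveData.DegZero.mul (CurveData.InChart.degZero X.normalised.1)
    (CurveData.DegZero.inv (degZero_ext M hτ _)))

theorem mem_locus (x : Spec (CommRingCat.of X.R)) : x ∈ locus M τ X.P := by
  intro K _ _ _ s hs V hV
  obtain ⟨φ, rfl⟩ := exists_specMap s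
  have h1 := CurveData.InChart.latMap X.normalised.1 φ
  rw [← latMap_lat_mul] at h1
  exact CurveData.InChart.of_sameClass h1 (sameClass_mul_right M
    (sameClass_of_bIso M (BIso.trans (BIso.symm (M.bundle_pullbackAlong φ X.lat)) hV)) _)

theorem separates : Separates X.P := by
  intro T t g g' hgg'
  refine Subtype.ext (Scheme.hom_ext_of_forall _ _ fun x => ?_)
  obtain ⟨B, _, _, j, _, hx, -⟩ := exists_affine_nbhd t (U := ⊤) (x := x) trivial
  obtain ⟨φ, hφ⟩ := exists_specMap (postComp g j)
  obtain ⟨φ', hφ'⟩ := exists_specMap (postComp g' j)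
  have h1 := ((bIso_pullback_pullback X.P g j).symm.trans (hgg'.pullback j)).trans
    (bIso_pullback_pullback X.P g' j)
  rw [hφ, hφ'] at h1
  have h2 := sameClass_mul_right M (sameClass_of_bIso M
    (((BIso.symm (M.bundle_pullbackAlong φ X.lat)).trans h1).trans
      (M.bundle_pullbackAlong φ' X.lat))) (ext M τ B)
  rw [latMap_lat_mul, latMap_lat_mul] at h2
  have h3 := CurveData.normalised_unique (CurveData.IsNormalised.latMap X.normalised φ)
    (CurveData.IsNormalised.latMap X.normalised φ') h2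
  have h4 : φ = φ' := (X.univ B _ (CurveData.IsNormalised.latMap X.normalised φ')).unique h3 rfl
  obtain ⟨a, ha⟩ := exists_opensHom j
  refine ⟨j.1.opensRange, hx, ?_⟩
  rw [← ha, Category.assoc, Category.assoc, show j.1 ≫ g.1 = (specMap φ).1 from congrArg Subtype.val hφ,
    show j.1 ≫ g'.1 = (specMap φ').1 from congrArg Subtype.val hφ', h4]

theorem classify (hτ : τ.DegZero) {L : RigidifiedLineBundle c ε t} (hL : M.DegFibrewise L)
    (hfull : ∀ x, x ∈ locus M τ L) :
    ∃! g : SchemeHomOver t (specBase k X.R), BIso (X.P.pullbackAlong g) L := by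
  refine exists_glue_hom M X.separates L fun x => ?_
  obtain ⟨B, _, _, j, W, hj, hx, h⟩ := exists_bundle_local M L x
  obtain ⟨W', hW', hs⟩ := CurveData.exists_normalised (inChart_of_locus M hL hτ h hfull)
  obtain ⟨φ, hφ, -⟩ := X.univ B W' hW'
  refine ⟨_, _, j, hj, hx, specMap φ, BIso.trans (M.bundle_pullbackAlong φ X.lat) ?_⟩
  refine BIso.trans ((M.bundle_iso_iff _ W).mpr ?_) h.symm
  have h2 := sameClass_mul_right M hs.symm (ext M τ B)⁻¹
  rwa [mul_inv_cancel_right, ← hφ, ← latMap_lat_mul, mul_inv_cancel_right] at h2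

end LocalChart

end Sch

end Fermat.Agent.Jac
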