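/-
S25 U5a: gluing the translates of the chart.
-/
import Fermat.Agent.Jac.Scheme.Locus

set_option autoImplicit false
set_option linter.style.haveILetI false
set_option linter.unusedSectionVars false

noncomputable section

universe u

open CategoryTheory CategoryTheory.Limits AlgebraicGeometry NeronModelInfra AlgebraicGeometry.RelPicard
  GoodReductionJacobian

namespace Fermat.Agent.Jac

namespace Sch

variable {k : Type u} [Field k] [IsAlgClosed k] {C : Scheme.{u}} {c : C ⟶ Spec (CommRingCat.of k)}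
  {ε : SchemeHomOver (𝟙 (Spec (CommRingCat.of k))) c} [IsProper c]

/-- Translates of the chart meeting every class. -/
structure Atlas (M : CurveModel c ε) : Type (u + 1) where
  J : Type u
  [finite : Finite J]
  τ : J → M.D.Lat k
  degZero : ∀ i, (τ i).DegZero
  covers : ∀ (K : Type u) [Field K] [IsAlgClosed K] [Algebra k K] (W : M.D.Lat K), W.DegZero →
    ∃ i, (W * M.D.latMap (Algebra.ofId k K) (τ i)).InChart
  chart : ∀ i, LocalChart M (τ i)

attribute [instance] Atlas.finite

variable {M : CurveModel c ε}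

theorem nonempty_atlas (M : CurveModel c ε) : Nonempty (Atlas M) := by
  obtain ⟨J, _, τ, h1, h2⟩ := CurveData.exists_twists (D := M.D)
  exact ⟨⟨J, τ, h1, h2, fun i => (nonempty_localChart M (τ i)).some⟩⟩

namespace Atlas

variable (A : Atlas M)

/-- A piece of the Jacobian. -/
abbrev piece (i : A.J) : Scheme.{u} := Spec (CommRingCat.of (A.chart i).R)

/-- The structure morphism of a piece. -/
abbrev str (i : A.J) : A.piece i ⟶ Spec (CommRingCat.of k) := specBase k (A.chart i).R

theorem degP (i : A.J) : M.DegFibrewise (A.chart i).P := (A.chart i).degFibrewise (A.degZero i)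

/-- The part of a piece lying over another one. -/
def overlap (i j : A.J) : (A.piece i).Opens :=
  ⟨locus M (A.τ j) (A.chart i).P, isOpen_locus M (A.degP i) (A.degZero j)⟩

/-- The inclusion of an overlap. -/
def inc (i j : A.J) : SchemeHomOver ((A.overlap i j).ι ≫ A.str i) (A.str i) :=
  ⟨(A.overlap i j).ι, rfl⟩

theorem mem_locus_inc (i j l : A.J) (y : A.overlap i j) :
    y ∈ locus M (A.τ l) ((A.chart i).P.pullbackAlong (A.inc i j)) ↔
      (A.overlap i j).ι y ∈ A.overlap i l :=
  mem_locus_pullback M (A.degP i) (A.degZero l) (A.inc i j) y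

theorem existsUnique_trans (i j : A.J) :
    ∃! g : SchemeHomOver ((A.overlap i j).ι ≫ A.str i) (A.str j),
      BIso ((A.chart j).P.pullbackAlong g) ((A.chart i).P.pullbackAlong (A.inc i j)) :=
  (A.chart j).classify (A.degZero j) ((A.degP i).pullback _) fun y =>
    (A.mem_locus_inc i j j y).mpr y.2

/-- The change of chart. -/
def tr (i j : A.J) : SchemeHomOver ((A.overlap i j).ι ≫ A.str i) (A.str j) :=
  (A.existsUnique_trans i j).choose

theorem bIso_tr (i j : A.J) :
    BIso ((A.chart j).P.pullbackAlong (A.tr i j)) ((A.chart i).P.pullbackAlong (A.inc i j)) :=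
  (A.existsUnique_trans i j).choose_spec.1

theorem mem_overlap_tr (i j l : A.J) (y : A.overlap i j) :
    (A.tr i j).1 y ∈ A.overlap j l ↔ (A.overlap i j).ι y ∈ A.overlap i l := by
  rw [← A.mem_locus_inc i j l y, ← locus_congr M (A.bIso_tr i j) (A.τ l)]
  exact (mem_locus_pullback M (A.degP j) (A.degZero l) (A.tr i j) y).symm

theorem range_tr (i j : A.J) : Set.range (A.tr i j).1 ⊆ Set.range (A.overlap j i).ι := by
  rw [Scheme.Opens.range_ι]
  rintro _ ⟨y, rfl⟩
  exact (A.mem_overlap_tr i j i y).mpr ((A.chart i).mem_locus _)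

/-- The transition map. -/
def trans (i j : A.J) : (A.overlap i j).toScheme ⟶ (A.overlap j i).toScheme :=
  IsOpenImmersion.lift (A.overlap j i).ι (A.tr i j).1 (A.range_tr i j)

theorem trans_ι (i j : A.J) : A.trans i j ≫ (A.overlap j i).ι = (A.tr i j).1 :=
  IsOpenImmersion.lift_fac _ _ _

theorem tr_self (i : A.J) : A.tr i i = A.inc i i :=
  (A.chart i).separates _ _ _ _ (A.bIso_tr i i)

theorem trans_self (i : A.J) : A.trans i i = 𝟙 _ := by
  rw [← cancel_mono (A.overlap i i).ι, trans_ι, tr_self, Category.id_comp]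
  rfl

theorem isIso_inc (i : A.J) : IsIso (A.overlap i i).ι := by
  haveI : Surjective (A.overlap i i).ι :=
    ⟨fun x => ⟨⟨x, (A.chart i).mem_locus x⟩, rfl⟩⟩
  exact (isIso_iff_isOpenImmersion_and_surjective _).mpr ⟨inferInstance, inferInstance⟩

/-- A triple overlap. -/
abbrev triple (i j l : A.J) : Scheme.{u} := pullback (A.overlap i j).ι (A.overlap i l).ι

theorem range_fst_tr (i j l : A.J) :
    Set.range (pullback.fst (A.overlap i j).ι (A.overlap i l).ι ≫ (A.tr i j).1) ⊆
      Set.range (A.overlap j l).ι := by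
  rw [Scheme.Opens.range_ι]
  rintro _ ⟨z, rfl⟩
  refine (A.mem_overlap_tr i j l _).mpr ?_
  show (pullback.fst (A.overlap i j).ι (A.overlap i l).ι ≫ (A.overlap i j).ι) z ∈ _
  rw [pullback.condition]
  exact (pullback.snd (A.overlap i j).ι (A.overlap i l).ι z).2

/-- The transition map on triple overlaps. -/
def trans₃ (i j l : A.J) : A.triple i j l ⟶ A.triple j l i :=
  pullback.lift (IsOpenImmersion.lift (A.overlap j l).ι _ (A.range_fst_tr i j l))
    (pullback.fst _ _ ≫ A.trans i j) (by
      rw [IsOpenImmersion.lift_fac, Category.assoc, trans_ι])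

/-- A triple overlap seen in its piece. -/
def pt (i j l : A.J) :
    SchemeHomOver (pullback.fst (A.overlap i j).ι (A.overlap i l).ι ≫ (A.overlap i j).ι ≫ A.str i)
      (A.str i) :=
  postComp (A.inc i j) ⟨pullback.fst _ _, rfl⟩

instance mono_pt (i j l : A.J) : Mono (A.pt i j l).1 :=
  inferInstanceAs (Mono (pullback.fst (A.overlap i j).ι (A.overlap i l).ι ≫ (A.overlap i j).ι))

theorem trans₃_pt (i j l : A.J) :
    A.trans₃ i j l ≫ (A.pt j l i).1 = pullback.fst _ _ ≫ (A.tr i j).1 := by
  show A.trans₃ i j l ≫ pullback.fst _ _ ≫ (A.overlap j l).ι = _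
  rw [trans₃, pullback.lift_fst_assoc, IsOpenImmersion.lift_fac]

/-- The transition map on triple overlaps over the field. -/
def trans₃Over (i j l : A.J) : SchemeHomOver
    (pullback.fst (A.overlap i j).ι (A.overlap i l).ι ≫ (A.overlap i j).ι ≫ A.str i)
    (pullback.fst (A.overlap j l).ι (A.overlap j i).ι ≫ (A.overlap j l).ι ≫ A.str j) :=
  ⟨A.trans₃ i j l, by
    calc A.trans₃ i j l ≫ pullback.fst _ _ ≫ (A.overlap j l).ι ≫ A.str j
        = (A.trans₃ i j l ≫ (A.pt j l i).1) ≫ A.str j := by
          simp only [pt, postComp, inc, Category.assoc]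
      _ = _ := by rw [trans₃_pt, Category.assoc, (A.tr i j).2]⟩

theorem bIso_trans₃ (i j l : A.J) :
    BIso ((A.chart j).P.pullbackAlong (postComp (A.pt j l i) (A.trans₃Over i j l)))
      ((A.chart i).P.pullbackAlong (A.pt i j l)) := by
  let a : SchemeHomOver
      (pullback.fst (A.overlap i j).ι (A.overlap i l).ι ≫ (A.overlap i j).ι ≫ A.str i)
      ((A.overlap i j).ι ≫ A.str i) := ⟨pullback.fst _ _, rfl⟩
  rw [show postComp (A.pt j l i) (A.trans₃Over i j l) = postComp (A.tr i j) a from
    Subtype.ext (A.trans₃_pt i j l)]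
  exact (bIso_postComp (A.bIso_tr i j) a).trans (bIso_pullback_pullback _ _ _)

theorem cocycle₃ (i j l : A.J) :
    A.trans₃ i j l ≫ A.trans₃ j l i ≫ A.trans₃ l i j = 𝟙 _ := by
  let ψ := postComp (postComp (A.trans₃Over l i j) (A.trans₃Over j l i)) (A.trans₃Over i j l)
  have h1 : BIso ((A.chart i).P.pullbackAlong (postComp (A.pt i j l) ψ))
      ((A.chart i).P.pullbackAlong (A.pt i j l)) := by
    have e : postComp (A.pt i j l) ψ = postComp (postComp (postComp (A.pt i j l)
        (A.trans₃Over l i j)) (A.trans₃Over j l i)) (A.trans₃Over i j l) :=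
      Subtype.ext (by simp only [ψ, postComp, Category.assoc])
    rw [e]
    refine (bIso_postComp (bIso_postComp (A.bIso_trans₃ l i j) _) _).trans ?_
    refine (((bIso_pullback_pullback _ _ _).pullback _).trans ?_)
    refine ((A.bIso_trans₃ j l i).pullback _).trans ?_
    exact (bIso_pullback_pullback _ _ _).trans (A.bIso_trans₃ i j l)
  have h2 := congrArg Subtype.val ((A.chart i).separates _ _ _ _ h1)
  rw [← cancel_mono (A.pt i j l).1, Category.id_comp]
  simpa only [ψ, postComp, trans₃Over, Category.assoc] using h2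

/-- The gluing data of the Jacobian. -/
def glueData : Scheme.GlueData.{u} where
  J := A.J
  U := A.piece
  V p := (A.overlap p.1 p.2).toScheme
  f i j := (A.overlap i j).ι
  f_mono _ _ := inferInstance
  f_id i := A.isIso_inc i
  t i j := A.trans i j
  t_id i := A.trans_self i
  t' i j l := A.trans₃ i j l
  t_fac _ _ _ := pullback.lift_snd _ _ _
  cocycle i j l := A.cocycle₃ i j l
  f_open _ _ := inferInstance

/-- The glued scheme. -/
abbrev space : Scheme.{u} := A.glueData.glued

/-- The inclusion of a piece. -/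
def pieceι (i : A.J) : A.piece i ⟶ A.space := A.glueData.ι i

instance isOpenImmersion_pieceι (i : A.J) : IsOpenImmersion (A.pieceι i) :=
  A.glueData.ι_isOpenImmersion i

theorem exists_pieceι_eq (y : A.space) : ∃ i z, A.pieceι i z = y :=
  A.glueData.ι_jointly_surjective y

/-- The structure morphism. -/
def toBase : A.space ⟶ Spec (CommRingCat.of k) :=
  Multicoequalizer.desc _ _ (fun i => A.str i) fun p => by
    obtain ⟨i, j⟩ := p
    show (A.overlap i j).ι ≫ A.str i = (A.trans i j ≫ (A.overlap j i).ι) ≫ A.str j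
    exact ((A.tr i j).2.symm).trans (congrArg (· ≫ A.str j) (A.trans_ι i j).symm)

theorem pieceι_toBase (i : A.J) : A.pieceι i ≫ A.toBase = A.str i :=
  Multicoequalizer.π_desc _ _ _ _ _

/-- The inclusion of a piece over the field. -/
def pieceOver (i : A.J) : SchemeHomOver (A.str i) A.toBase := ⟨A.pieceι i, A.pieceι_toBase i⟩

instance (i : A.J) : IsOpenImmersion (A.pieceOver i).1 := A.isOpenImmersion_pieceι i

theorem bIso_of_pieceι {Y : Scheme.{u}} {y : Y ⟶ Spec (CommRingCat.of k)} {i j : A.J}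
    (a : SchemeHomOver y (A.str i)) (b : SchemeHomOver y (A.str j))
    (h : a.1 ≫ A.pieceι i = b.1 ≫ A.pieceι j) :
    BIso ((A.chart i).P.pullbackAlong a) ((A.chart j).P.pullbackAlong b) := by
  obtain ⟨v₀, hv1, hv2⟩ := PullbackCone.IsLimit.lift' (A.glueData.vPullbackConeIsLimit i j) a.1 b.1 h
  let v : Y ⟶ (A.overlap i j).toScheme := v₀
  have h1 : v ≫ (A.overlap i j).ι = a.1 := hv1
  have h2 : v ≫ (A.tr i j).1 = b.1 := (congrArg (v ≫ ·) (A.trans_ι i j).symm).trans hv2
  let v' : SchemeHomOver y ((A.overlap i j).ι ≫ A.str i) :=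
    ⟨v, by rw [← Category.assoc, h1]; exact a.2⟩
  rw [← (show postComp (A.inc i j) v' = a from Subtype.ext h1),
    ← (show postComp (A.tr i j) v' = b from Subtype.ext h2)]
  exact ((bIso_postComp (A.bIso_tr i j) v').trans (bIso_pullback_pullback _ _ _)).symm

theorem exists_bundle : ∃ P : RigidifiedLineBundle c ε A.toBase,
    ∀ i, BIso (P.pullbackAlong (A.pieceOver i)) (A.chart i).P := by
  choose a ha using fun i => exists_opensHom (A.pieceOver i)
  obtain ⟨P, hP⟩ := M.exists_glue A.toBase (ι := A.J) (fun i => (A.pieceOver i).1.opensRange)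
    (fun y => by
      obtain ⟨i, z, hz⟩ := A.exists_pieceι_eq y
      exact ⟨i, z, hz⟩)
    (fun i => (A.chart i).P.pullbackAlong (a i)) (fun i j => by
      refine ((bIso_pullback_pullback _ _ _).trans
        (BIso.trans (A.bIso_of_pieceι _ _ ?_) (bIso_pullback_pullback _ _ _).symm))
      show (A.space.homOfLE inf_le_left ≫ (a i).1) ≫ (A.pieceOver i).1 =
        (A.space.homOfLE inf_le_right ≫ (a j).1) ≫ (A.pieceOver j).1
      rw [Category.assoc, ha, Category.assoc, ha, Scheme.homOfLE_ι, Scheme.homOfLE_ι])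
  refine ⟨P, fun i => ?_⟩
  let w : SchemeHomOver (A.str i) ((A.pieceOver i).1.opensRange.ι ≫ A.toBase) :=
    ⟨(A.pieceOver i).1.isoOpensRange.hom, by
      rw [Scheme.Hom.isoOpensRange_hom_ι_assoc]; exact (A.pieceOver i).2⟩
  have e1 : postComp (⟨(A.pieceOver i).1.opensRange.ι, rfl⟩ :
      SchemeHomOver ((A.pieceOver i).1.opensRange.ι ≫ A.toBase) A.toBase) w = A.pieceOver i :=
    Subtype.ext (Scheme.Hom.isoOpensRange_hom_ι _)
  have e2 : postComp (a i) w = ⟨𝟙 _, Category.id_comp _⟩ := Subtype.ext (by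
    rw [← cancel_mono (A.pieceOver i).1]
    show (_ ≫ (a i).1) ≫ (A.pieceOver i).1 = _
    rw [Category.assoc, ha, Category.id_comp]
    exact Scheme.Hom.isoOpensRange_hom_ι _)
  have h1 : BIso _ _ := (hP i)
  have h2 := ((bIso_pullback_pullback P _ w).symm.trans (h1.pullback w)).trans
    (bIso_pullback_pullback _ _ _)
  rw [e1, e2] at h2
  exact h2.trans (bIso_pullback_id _)

/-- The universal bundle. -/
def P : RigidifiedLineBundle c ε A.toBase := A.exists_bundle.choose

theorem bIso_P (i : A.J) : BIso (A.P.pullbackAlong (A.pieceOver i)) (A.chart i).P :=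
  A.exists_bundle.choose_spec i

theorem bIso_P_lift {Y : Scheme.{u}} {y : Y ⟶ Spec (CommRingCat.of k)} {i : A.J}
    (g : SchemeHomOver y A.toBase) (a : SchemeHomOver y (A.str i))
    (h : postComp (A.pieceOver i) a = g) :
    BIso (A.P.pullbackAlong g) ((A.chart i).P.pullbackAlong a) := by
  rw [← h]
  exact bIso_postComp (A.bIso_P i) a

theorem degFibrewise_P : M.DegFibrewise A.P := by
  intro K _ _ _ s W hW
  obtain ⟨i, z, hz⟩ := A.exists_pieceι_eq (s.1 (⊥ : PrimeSpectrum K))
  obtain ⟨a, ha⟩ := exists_lift (A.pieceOver i) s (by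
    rintro _ ⟨q, rfl⟩
    rw [Subsingleton.elim q (⊥ : PrimeSpectrum K)]
    exact ⟨z, hz⟩)
  exact A.degP i K a W ((A.bIso_P_lift s a ha).symm.trans hW)

theorem mem_range_iff (i : A.J) (y : A.space) :
    y ∈ Set.range (A.pieceι i) ↔ y ∈ locus M (A.τ i) A.P := by
  obtain ⟨j, z, rfl⟩ := A.exists_pieceι_eq y
  have h1 : A.pieceι j z ∈ locus M (A.τ i) A.P ↔ z ∈ A.overlap j i :=
    (mem_locus_pullback M A.degFibrewise_P (A.degZero i) (A.pieceOver j) z).symm.trans
      (by rw [locus_congr M (A.bIso_P j) (A.τ i)]; rfl)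
  rw [h1]
  constructor
  · rintro ⟨z', hz'⟩
    obtain ⟨v, hv, -⟩ := (A.glueData.ι_eq_iff j i z z').mp hz'.symm
    have e : (A.overlap j i).ι v = z := hv
    rw [← e]
    exact v.2
  · intro hz
    refine ⟨((A.trans j i) ≫ (A.overlap i j).ι) ⟨z, hz⟩, ?_⟩
    exact congrArg (fun q : (A.overlap j i).toScheme ⟶ A.space => q ⟨z, hz⟩)
      (A.glueData.glue_condition j i)

theorem separates : Separates A.P := by
  intro T t g g' h
  refine Subtype.ext (Scheme.hom_ext_of_forall _ _ fun x => ?_)
  obtain ⟨i, hi⟩ := exists_mem_locus M A.τ A.degZero A.covers (A.degFibrewise_P.pullback g) x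
  let U : T.Opens := ⟨locus M (A.τ i) (A.P.pullbackAlong g),
    isOpen_locus M (A.degFibrewise_P.pullback g) (A.degZero i)⟩
  let u : SchemeHomOver (U.ι ≫ t) t := ⟨U.ι, rfl⟩
  have hU : ∀ (f : SchemeHomOver t A.toBase), BIso (A.P.pullbackAlong g) (A.P.pullbackAlong f) →
      ∃ a : SchemeHomOver (U.ι ≫ t) (A.str i), postComp (A.pieceOver i) a = postComp f u :=
    fun f hf => exists_lift (A.pieceOver i) (postComp f u) (by
      rintro _ ⟨y, rfl⟩
      refine (A.mem_range_iff i _).mpr ?_
      refine (mem_locus_pullback M A.degFibrewise_P (A.degZero i) f (U.ι y)).mp ?_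
      rw [← locus_congr M hf (A.τ i)]
      exact y.2)
  obtain ⟨a, ha⟩ := hU g (BIso.refl _)
  obtain ⟨a', ha'⟩ := hU g' h
  have h1 := ((A.bIso_P_lift _ a ha).symm.trans
    (((bIso_pullback_pullback A.P g u).symm.trans (h.pullback u)).trans
      (bIso_pullback_pullback A.P g' u))).trans (A.bIso_P_lift _ a' ha')
  rw [(A.chart i).separates _ _ a a' h1, ha'] at ha
  exact ⟨U, hi, congrArg Subtype.val ha.symm⟩

theorem classify {T : Scheme.{u}} {t : T ⟶ Spec (CommRingCat.of k)}
    (L : RigidifiedLineBundle c ε t) (hL : M.DegFibrewise L) :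
    ∃! g : SchemeHomOver t A.toBase, BIso (A.P.pullbackAlong g) L := by
  refine exists_glue_hom M A.separates L fun x => ?_
  obtain ⟨i, hi⟩ := exists_mem_locus M A.τ A.degZero A.covers hL x
  let U : T.Opens := ⟨locus M (A.τ i) L, isOpen_locus M hL (A.degZero i)⟩
  let u : SchemeHomOver (U.ι ≫ t) t := ⟨U.ι, rfl⟩
  obtain ⟨g, hg, -⟩ := (A.chart i).classify (A.degZero i) (hL.pullback u) fun y =>
    (mem_locus_pullback M hL (A.degZero i) u y).mpr y.2
  exact ⟨U.toScheme, U.ι ≫ t, u, inferInstanceAs (IsOpenImmersion U.ι), ⟨⟨x, hi⟩, rfl⟩,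
    postComp (A.pieceOver i) g, (A.bIso_P_lift _ g rfl).trans hg⟩

end Atlas

end Sch

end Fermat.Agent.Jac
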